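import Fermat.Agent.ModularFunctionField.Descent
import Mathlib.FieldTheory.Perfect

/-!
# The function field of level `N q m` as a compositum

An element which is the only common root of two split polynomials over a field lies in that
field.  Applied to the modular equations of two distinct primes `q`, `m` this gives
`j(t ^ (N q m))` from `j(t ^ (N m))`, `j(t ^ (N q))`, and `j(t)` from `j(t ^ q)`, `j(t ^ m)`.
-/

noncomputable section

open ModularCurve Polynomial
open Fermat.Agent.ModularFunctionField (Tri jRoot jT baseField phiBase phiBase_map phiBase_monic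
  jRoot_top order_jRoot coeff_jRoot jT_mem_baseField)

namespace Fermat.Agent.BadPrimeFrobenius

local notation "Qb" => AlgebraicClosure ℚ

section Generic

variable {K Ω : Type*} [Field K] [CharZero K] [Field Ω] [Algebra K Ω]

/-- An element which is the only common root of two split polynomials over a field lies in it. -/
theorem mem_of_unique_common_root (C : IntermediateField K Ω) {ι κ : Type*} [Fintype ι] [Fintype κ]
    {r : ι → Ω} {s : κ → Ω} {f g : Polynomial C}
    (hf : f.map (algebraMap C Ω) = ∏ i, (X - Polynomial.C (r i)))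
    (hg : g.map (algebraMap C Ω) = ∏ k, (X - Polynomial.C (s k))) {x : Ω}
    (hxr : ∃ i, r i = x) (hxs : ∃ k, s k = x) (huniq : ∀ i k, r i = s k → r i = x) : x ∈ C := by
  classical
  have : CharZero C := charZero_of_injective_algebraMap (algebraMap K C).injective
  have hfm : f.Monic := monic_of_injective (algebraMap C Ω).injective
    (hf ▸ monic_prod_of_monic _ _ fun i _ => monic_X_sub_C _)
  have hfx : aeval x f = 0 := by
    obtain ⟨i, hi⟩ := hxr
    rw [aeval_def, ← eval_map, hf, eval_prod]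
    exact Finset.prod_eq_zero (Finset.mem_univ i) (by simp [hi])
  have hgx : aeval x g = 0 := by
    obtain ⟨k, hk⟩ := hxs
    rw [aeval_def, ← eval_map, hg, eval_prod]
    exact Finset.prod_eq_zero (Finset.mem_univ k) (by simp [hk])
  have hint : IsIntegral C x := ⟨f, hfm, hfx⟩
  set p := minpoly C x
  have hdf : p.map (algebraMap C Ω) ∣ ∏ i, (X - Polynomial.C (r i)) :=
    hf ▸ Polynomial.map_dvd _ (minpoly.dvd C x hfx)
  have hdg : p.map (algebraMap C Ω) ∣ ∏ k, (X - Polynomial.C (s k)) :=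
    hg ▸ Polynomial.map_dvd _ (minpoly.dvd C x hgx)
  have hne : (∏ i, (X - Polynomial.C (r i))) ≠ 0 :=
    (monic_prod_of_monic _ _ fun i _ => monic_X_sub_C _).ne_zero
  have hsplit : (p.map (algebraMap C Ω)).Splits :=
    Splits.of_dvd (Splits.prod fun i _ => Splits.X_sub_C (r i)) hne hdf
  have hroots : ∀ y ∈ (p.map (algebraMap C Ω)).roots, y = x := by
    intro y hy
    have hy0 := (isRoot_of_mem_roots hy)
    have h1 := IsRoot.dvd hy0 hdf
    have h2 := IsRoot.dvd hy0 hdg
    rw [IsRoot, eval_prod, Finset.prod_eq_zero_iff] at h1 h2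
    obtain ⟨i, -, hi⟩ := h1
    obtain ⟨k, -, hk⟩ := h2
    simp only [eval_sub, eval_X, eval_C, sub_eq_zero] at hi hk
    exact hi.trans (huniq i k (hi.symm.trans hk))
  have hnd : (p.map (algebraMap C Ω)).roots.Nodup :=
    nodup_roots ((minpoly.irreducible hint).separable.map)
  have hcard : Multiset.card (p.map (algebraMap C Ω)).roots ≤ 1 := by
    rw [← Multiset.toFinset_card_of_nodup hnd]
    exact Finset.card_le_one.mpr fun a ha b hb =>
      (hroots a (Multiset.mem_toFinset.mp ha)).trans (hroots b (Multiset.mem_toFinset.mp hb)).symm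
  rw [← hsplit.natDegree_eq_card_roots, natDegree_map] at hcard
  have h1 : p.natDegree = 1 := le_antisymm hcard (minpoly.natDegree_pos hint)
  obtain ⟨c, hc⟩ := (minpoly.natDegree_eq_one_iff (B := Ω)).mp h1
  exact hc ▸ c.2

end Generic

/-- The substitution `t ↦ t ^ k` as an algebra map. -/
def qExpandHom (k : ℕ) [NeZero k] : LaurentSeries Qb →ₐ[Qb] LaurentSeries Qb where
  __ := qExpand Qb k
  commutes' a := by
    show qExpand Qb k (algebraMap Qb (LaurentSeries Qb) a) = _
    rw [algebraMap_laurentSeries_eq_single, qExpand_single, mul_zero]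

theorem qExpandHom_apply (k : ℕ) [NeZero k] (x : LaurentSeries Qb) :
    qExpandHom k x = qExpand Qb k x := rfl

theorem exists_unit_primitive (n : ℕ) [NeZero n] : ∃ u : Qbˣ, IsPrimitiveRoot u n := by
  obtain ⟨z, hz⟩ := HasEnoughRootsOfUnity.exists_primitiveRoot Qb n
  exact ⟨(hz.isUnit (NeZero.ne n)).unit, hz.isUnit_unit (NeZero.ne n)⟩

section Roots

variable (C : IntermediateField Qb (LaurentSeries Qb))

theorem exists_map_phiBase {n p c : ℕ} [NeZero n] [NeZero p] [NeZero c] {u : Qbˣ}
    (hu : IsPrimitiveRoot u n) (hn : p * c = n) (h : jT Qb n ∈ C) :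
    ∃ f : Polynomial C, f.map (algebraMap C (LaurentSeries Qb)) =
      ∏ M₁ : Tri p, (X - Polynomial.C (jRoot u c M₁)) := by
  have hle : baseField Qb n ≤ C := by
    rw [baseField, IntermediateField.adjoin_le_iff, Set.singleton_subset_iff]
    exact h
  refine ⟨(phiBase Qb n p).map (IntermediateField.inclusion hle).toRingHom, ?_⟩
  rw [Polynomial.map_map, ← phiBase_map hu hn]
  congr 1

variable {q m : ℕ} [NeZero q] [NeZero m]

/-- `j(q²τ)` is the only common root when the two parameters differ by `m² / q²`. -/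
theorem top_mem_of_two (hq : q.Prime) (hm : m.Prime) (hne : q ≠ m) (N : ℕ) [NeZero N]
    (h1 : qExpand Qb (q * (N * (m * m))) (jqModC Qb) ∈ C)
    (h2 : qExpand Qb (m * (N * (q * q))) (jqModC Qb) ∈ C) :
    qExpand Qb (q * q * (N * (m * m))) (jqModC Qb) ∈ C := by
  obtain ⟨u, hu⟩ := exists_unit_primitive (q * (N * (m * m)))
  obtain ⟨v, hv⟩ := exists_unit_primitive (m * (N * (q * q)))
  obtain ⟨f, hf⟩ := exists_map_phiBase C hu rfl h1
  obtain ⟨g, hg⟩ := exists_map_phiBase C hv rfl h2
  refine mem_of_unique_common_root C hf hg ⟨Tri.top, jRoot_top u _⟩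
    ⟨Tri.top, (jRoot_top v _).trans (qExpand_congr (by ring) _)⟩ fun M₁ M₂ h => ?_
  have ho : M₁.a * M₁.a * (N * (m * m)) = M₂.a * M₂.a * (N * (q * q)) := by
    have e := (order_jRoot u (N * (m * m)) M₁).1
    rw [h, (order_jRoot v (N * (q * q)) M₂).1] at e
    exact_mod_cast (neg_injective e).symm
  have he : M₁.a * m = M₂.a * q := by
    refine Nat.mul_self_inj.mp (Nat.eq_of_mul_eq_mul_left (Nat.pos_of_ne_zero (NeZero.ne N)) ?_)
    linear_combination ho
  have hqa : q ∣ M₁.a := ((Nat.coprime_primes hq hm).mpr hne).dvd_of_dvd_mul_right ⟨M₂.a, by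
    rw [he]; ring⟩
  have ha : M₁.a = q := Nat.dvd_antisymm ⟨M₁.d, M₁.a_mul_d.symm⟩ hqa
  have hd : M₁.d = 1 := by
    have e := M₁.a_mul_d
    rw [ha] at e
    exact Nat.eq_of_mul_eq_mul_left hq.pos (e.trans (mul_one q).symm)
  have hb : M₁.b = 0 := by have := M₁.b_lt; omega
  rw [show M₁ = Tri.top from ModularFunctionField.Tri.ext' ha hb hd]
  exact jRoot_top u _

/-- `j(τ)` is the only common root of the equations of `j(qτ)` and `j(mτ)`. -/
theorem bot_mem_of_two (hq : q.Prime) (hm : m.Prime) (hne : q ≠ m)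
    (h1 : qExpand Qb q (jqModC Qb) ∈ C) (h2 : qExpand Qb m (jqModC Qb) ∈ C) :
    jqModC Qb ∈ C := by
  obtain ⟨u, hu⟩ := exists_unit_primitive q
  obtain ⟨v, hv⟩ := exists_unit_primitive m
  obtain ⟨f, hf⟩ := exists_map_phiBase C hu (mul_one q) h1
  obtain ⟨g, hg⟩ := exists_map_phiBase C hv (mul_one m) h2
  have hbot : ∀ {p : ℕ} [NeZero p] (w : Qbˣ) (M : Tri p), M.a = 1 → M.b = 0 →
      jRoot w 1 M = jqModC Qb := by
    intro p _ w M ha hb
    rw [jRoot, ModularFunctionField.rootSubst, ModularFunctionField.subst_congr (v := 1) (l := 1)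
      (by simp [hb]) (by simp [ha]), ModularFunctionField.subst_one, qExpand_one_apply]
  refine mem_of_unique_common_root C hf hg
    ⟨ModularFunctionField.Tri.mk 1 0 q (one_mul q) hq.pos (by simp), hbot u _ rfl rfl⟩
    ⟨ModularFunctionField.Tri.mk 1 0 m (one_mul m) hm.pos (by simp), hbot v _ rfl rfl⟩
    fun M₁ M₂ h => ?_
  have ho : M₁.a * M₁.a * 1 = M₂.a * M₂.a * 1 := by
    have e := (order_jRoot u 1 M₁).1
    rw [h, (order_jRoot v 1 M₂).1] at e
    exact_mod_cast (neg_injective e).symm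
  have he : M₁.a = M₂.a := Nat.mul_self_inj.mp (by simpa using ho)
  have ha : M₁.a = 1 := Nat.dvd_one.mp (((Nat.coprime_primes hq hm).mpr hne).gcd_eq_one ▸
    Nat.dvd_gcd ⟨M₁.d, M₁.a_mul_d.symm⟩ (he ▸ ⟨M₂.d, M₂.a_mul_d.symm⟩))
  have hco := (coeff_jRoot u 1 M₁).1
  rw [h, ho, (coeff_jRoot v 1 M₂).1, Units.val_inj, inv_inj, ← he, ha] at hco
  simp only [mul_one] at hco
  have hd : M₁.d = q := by
    have := M₁.a_mul_d
    rwa [ha, one_mul] at this
  have hb : M₁.b = 0 := by
    have hpow : u ^ (M₁.b * m) = 1 := by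
      rw [pow_mul, ← hco, ← pow_mul, mul_comm, pow_mul, hv.pow_eq_one, one_pow]
    have hqb : q ∣ M₁.b := ((Nat.coprime_primes hq hm).mpr hne).dvd_of_dvd_mul_right
      ((hu.pow_eq_one_iff_dvd _).mp hpow)
    exact Nat.eq_zero_of_dvd_of_lt hqb (M₁.b_lt.trans_eq hd)
  exact hbot u M₁ ha hb

/-- `j(t ^ (Nqm))` from `j(t ^ (Nm))` and `j(t ^ (Nq))`. -/
theorem level_mem_of_two (hq : q.Prime) (hm : m.Prime) (hne : q ≠ m) (N : ℕ) [NeZero N]
    (h1 : qExpand Qb (N * m) (jqModC Qb) ∈ C) (h2 : qExpand Qb (N * q) (jqModC Qb) ∈ C) :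
    qExpand Qb (N * q * m) (jqModC Qb) ∈ C := by
  obtain ⟨y, hy, hyx⟩ := top_mem_of_two (C.map (qExpandHom (q * m))) hq hm hne N
    ⟨_, h1, by
      show qExpandHom (q * m) _ = _
      rw [qExpandHom_apply, qExpand_qExpand]
      exact qExpand_congr (by ring) _⟩
    ⟨_, h2, by
      show qExpandHom (q * m) _ = _
      rw [qExpandHom_apply, qExpand_qExpand]
      exact qExpand_congr (by ring) _⟩
  have : y = qExpand Qb (N * q * m) (jqModC Qb) := qExpand_injective (q * m) (by
    show qExpand Qb (q * m) y = qExpand Qb (q * m) _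
    rw [qExpand_qExpand]
    exact (qExpandHom_apply (q * m) y).symm.trans (hyx.trans (qExpand_congr (by ring) _)))
  exact this ▸ hy

end Roots

end Fermat.Agent.BadPrimeFrobenius
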