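import Fermat.Agent.BadPrimeFrobenius.Kernel
import Fermat.Agent.SteinbergExport.Main

/-!
# The killed quartic at a prime exactly dividing the level

At a prime `q` exactly dividing `M` the quartic `(σ² - q²) (σ² - 1)` in a Frobenius element kills
the common kernel of the two pushforwards to level `M / q`; hence the `λ`-adic representation of a
newform of level `M` is Steinberg at `q`.
-/

noncomputable section

open ModularCurve CongruenceSubgroup

namespace Fermat.Agent.BadPrimeFrobenius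

open CarayolReduction

local notation "Qbar" => AlgebraicClosure ℚ
local notation "Gal" => AlgebraicClosure ℚ ≃ₐ[ℚ] AlgebraicClosure ℚ

/-- At `q` exactly dividing `M` the quartic of Frobenius kills the common kernel of the two
pushforwards to level `M / q`. -/
theorem quarticKilled_of_split (hcore : QuadAtSplitLevels) (M lam q : ℕ) [NeZero M]
    (hlam : lam.Prime) (hq : q.Prime) (hql : q ≠ lam) (hqM : q ∣ M) (hq2 : ¬ q ^ 2 ∣ M)
    (A : ValuationSubring Qbar) (hA : A.LiesOverPrime q) (σ : Gal) (hσ : A.IsFrobeniusAt σ q) :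
    ∃ _ : NeZero (M / q), SteinbergExport.QuarticKilled M (M / q) q lam σ := by
  have hM : M = M / q * q := (Nat.div_mul_cancel hqM).symm
  have hne : NeZero (M / q) :=
    ⟨fun h => NeZero.ne M (by rw [hM, h, zero_mul])⟩
  have : NeZero q := ⟨hq.ne_zero⟩
  have hqN : ¬ q ∣ M / q := fun hd => hq2 (by
    rw [pow_two, hM]
    exact Nat.mul_dvd_mul_right hd q)
  have h₁ : M / q * 1 ∣ M := by rw [mul_one]; exact Nat.div_dvd_of_dvd hqM
  have h₂ : M / q * q ∣ M := dvd_of_eq hM.symm
  refine ⟨hne, pushPic (dilHom (M / q) M 1 h₁), pushPic (dilHom (M / q) M q h₂),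
    fun l hl hlM x => pushPic_hecke hq hqN hM (Or.inl rfl) h₁ ⟨l, hl⟩ hlM x,
    fun l hl hlM x => pushPic_hecke hq hqN hM (Or.inr rfl) h₂ ⟨l, hl⟩ hlM x,
    1, one_ne_zero, fun n x hx hx₁ hx₂ => ?_⟩
  rw [one_smul]
  exact kernelQuartic_of_split hcore hq hqN hM hlam hql.symm hA hσ h₁ h₂ x hx hx₁ hx₂

/-- The Galois representation of a newform, with Frobenius polynomial
`X² ∓ (q + 1) X + q` at every prime `q` exactly dividing the level, from trivial Kummer classes. -/
theorem exists_galoisRep_steinberg_of_split (hcore : QuadAtSplitLevels)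
    {M : ℕ} [NeZero M] {g : CuspForm (Gamma0 M) 2} (hg : g.IsNewform)
    (lam : ℕ) [Fact lam.Prime]
    (S : Finset ℕ)
    (O' : Type) [CommRing O'] [IsDomain O'] [IsDiscreteValuationRing O']
    [IsAdicComplete (IsLocalRing.maximalIdeal O') O'] [Finite (IsLocalRing.ResidueField O')]
    [CharZero O'] (hlamO' : (lam : O') ∈ IsLocalRing.maximalIdeal O')
    (chig : CuspForm.heckeAlgebra M 2 (↑S : Set ℕ) →+* ℂ)
    (hchig : ∀ (ℓ : ℕ) (hℓ : ℓ.Prime) (hℓM : ¬ ℓ ∣ M) (hℓS : ℓ ∉ (↑S : Set ℕ)),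
      chig (CuspForm.heckeAlgebra.T hℓ hℓM hℓS) = ModularFormClass.qCoeff g ℓ)
    (iota : chig.range →+* O')
    (hlamS : lam ∈ S) (hMS : ∀ q : ℕ, q.Prime → q ∣ M → q ∈ S) :
    ∃ (O'' : Type) (_ : CommRing O'') (_ : IsDomain O'') (_ : IsDiscreteValuationRing O'')
      (_ : IsAdicComplete (IsLocalRing.maximalIdeal O'') O'') (_ : Finite (IsLocalRing.ResidueField O''))
      (_ : CharZero O'') (_ : Algebra O' O'') (_ : Module.Finite O' O'') (_ : IsLocalHom (algebraMap O' O'')),
      Function.Injective (algebraMap O' O'') ∧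
      ∃ ρ : GaloisRepAdic O'',
        (∀ (ℓ : ℕ) (hℓ : ℓ.Prime) (hℓM : ¬ ℓ ∣ M) (hℓS : ℓ ∉ (↑S : Set ℕ)),
          ∀ A : ValuationSubring (Qbar), A.LiesOverPrime ℓ →
            ∀ σ : Gal, A.IsFrobeniusAt σ ℓ →
              LinearMap.charpoly (ρ.ρ σ) =
                Polynomial.X ^ 2 - Polynomial.C (algebraMap O' O'' ((iota.comp chig.rangeRestrict) (CuspForm.heckeAlgebra.T hℓ hℓM hℓS))) * Polynomial.X
                  + Polynomial.C ((ℓ : O''))) ∧
        (∀ q : ℕ, q.Prime → q ≠ lam → q ∣ M → ¬ q ^ 2 ∣ M →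
          ∀ A : ValuationSubring (Qbar), A.LiesOverPrime q →
            ∀ σ : Gal, A.IsFrobeniusAt σ q →
              LinearMap.charpoly (ρ.ρ σ) = Polynomial.X ^ 2 - Polynomial.C ((q : O'') + 1) * Polynomial.X + Polynomial.C ((q : O'')) ∨
              LinearMap.charpoly (ρ.ρ σ) = Polynomial.X ^ 2 + Polynomial.C ((q : O'') + 1) * Polynomial.X + Polynomial.C ((q : O''))) :=
  SteinbergExport.exists_galoisRep_steinberg hg lam
    (fun q hq hql hqM hq2 A hA σ hσ =>
      quarticKilled_of_split hcore M lam q Fact.out hq hql hqM hq2 A hA σ hσ)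
    S O' hlamO' chig hchig iota hlamS hMS

end Fermat.Agent.BadPrimeFrobenius
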