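import Fermat.Agent.BadPrimeFrobenius.Square
import Fermat.Agent.UnipotentInertia.Translate
import Fermat.Agent.TwoComp.QuadRoot

/-!
# The kernel of the two pushforwards under the quartic of Frobenius

From trivial Kummer classes: on the common kernel of `J₀(N q) → J₀(N)` in the torsion prime to
`q` a Frobenius element `σ` at `q` satisfies `(σ² - q²) (σ² - 1) = 0`.  The auxiliary level
hypothesis `2 ∣ N ∨ 3 ∣ N` is removed by raising the level.
-/

noncomputable section

open AlgebraicCurve ModularCurve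

namespace Fermat.Agent.BadPrimeFrobenius

open CarayolReduction

local notation "Qb" => AlgebraicClosure ℚ
local notation "GQ" => AlgebraicClosure ℚ ≃ₐ[ℚ] AlgebraicClosure ℚ
local notation "FB" => modularFunctionFieldBar

section General

variable {K F : Type*} [Field K] [Field F] [Algebra K F] (g : SemilinearAut K F)

/-- If the twisted class of `f` is a power, `(g - c) (g - 1)` kills the class. -/
theorem smul_sub_smul_eq_zero_of_root {n : ℕ} (hn : n ≠ 0) (c : ℕ)
    (D : Divisor.degZero (K := K) (F := F)) {f : F} (hf : f ≠ 0)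
    (hfD : ∀ v : Place K F, v.ord f = (n : ℤ) * (D : Divisor K F) v)
    (hD : n • Pic0.mk D = 0) {s : F}
    (hs : s ^ n * ((g • (g • f * f ^ (n - 1))) * (g • f * f ^ (n - 1)) ^ ((n - 1) * c)) = 1) :
    g • (g • Pic0.mk D - Pic0.mk D) - c • (g • Pic0.mk D - Pic0.mk D) = 0 := by
  set e := n - 1 with he
  set E₁ : Divisor.degZero (K := K) (F := F) :=
    SemilinearAut.degZeroSMulHom g D + e • D with hE₁
  set E : Divisor.degZero (K := K) (F := F) :=
    SemilinearAut.degZeroSMulHom g E₁ + (e * c) • E₁ with hE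
  have hgf : g • f ≠ 0 := (smul_ne_zero_iff_ne g).mpr hf
  have hu : g • f * f ^ e ≠ 0 := mul_ne_zero hgf (pow_ne_zero _ hf)
  have hgu : g • (g • f * f ^ e) ≠ 0 := (smul_ne_zero_iff_ne g).mpr hu
  have hs0 : s ≠ 0 := fun h0 => by simp [h0, hn] at hs
  have hu' : ∀ w : Place K F, w.ord (g • f * f ^ e) = (n : ℤ) * (E₁ : Divisor K F) w := fun w => by
    rw [w.ord_mul hgf (pow_ne_zero _ hf), ← zpow_natCast f e, w.ord_zpow,
      UnipotentInertia.ord_smul_eq, hfD, hfD, hE₁]
    simp only [AddSubgroup.coe_add, AddSubgroupClass.coe_nsmul, Finsupp.add_apply,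
      Finsupp.smul_apply, nsmul_eq_mul, SemilinearAut.coe_degZeroSMulHom,
      SemilinearAut.divisor_smul_apply]
    ring
  have hprin : (E : Divisor K F).IsPrincipal := by
    refine ⟨s⁻¹, inv_ne_zero hs0, fun v => ?_⟩
    refine mul_left_cancel₀ (show (n : ℤ) ≠ 0 by exact_mod_cast hn) ?_
    have h1 := congrArg v.ord hs
    rw [v.ord_mul (pow_ne_zero _ hs0) (mul_ne_zero hgu (pow_ne_zero _ hu)),
      v.ord_mul hgu (pow_ne_zero _ hu), ← zpow_natCast s n, v.ord_zpow,
      ← zpow_natCast (g • f * f ^ e) (e * c), v.ord_zpow,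
      UnipotentInertia.ord_smul_eq g (g • f * f ^ e), hu', hu', Place.ord_one] at h1
    rw [Place.ord_inv, hE]
    simp only [AddSubgroup.coe_add, AddSubgroupClass.coe_nsmul, Finsupp.add_apply,
      Finsupp.smul_apply, nsmul_eq_mul, SemilinearAut.coe_degZeroSMulHom,
      SemilinearAut.divisor_smul_apply]
    linear_combination h1
  have h0 : Pic0.mk E = 0 := by
    rw [Pic0.mk, QuotientAddGroup.eq_zero_iff, AddSubgroup.mem_addSubgroupOf]
    exact hprin
  have hneg : ∀ y : Pic0 K F, n • y = 0 → e • y = -y := fun y hy => by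
    rw [eq_neg_iff_add_eq_zero, ← succ_nsmul, he, Nat.sub_add_cancel (Nat.pos_of_ne_zero hn), hy]
  have hg : n • (g • Pic0.mk D) = 0 := by
    rw [show n • (g • Pic0.mk D) = g • (n • Pic0.mk D) from
      (map_nsmul (DistribSMul.toAddMonoidHom (Pic0 K F) g) _ _).symm, hD]
    exact smul_zero (A := Pic0 K F) g
  have hy : n • (g • Pic0.mk D - Pic0.mk D) = 0 := by rw [nsmul_sub, hg, hD, sub_zero]
  have hE₁' : Pic0.mk E₁ = g • Pic0.mk D - Pic0.mk D := by
    have h1 : Pic0.mk E₁ = g • Pic0.mk D + e • Pic0.mk D := by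
      simp only [hE₁, SemilinearAut.pic0_smul_mk]
      rfl
    rw [h1, hneg _ hD, sub_eq_add_neg]
  have hsum : Pic0.mk E = g • Pic0.mk E₁ + (e * c) • Pic0.mk E₁ := by
    simp only [hE, SemilinearAut.pic0_smul_mk]
    rfl
  rw [hsum, hE₁', mul_comm e c, mul_smul, hneg _ hy, neg_nsmul, ← sub_eq_add_neg] at h0
  exact h0

end General

/-- `(σ² - q²) (σ² - 1)` kills the common kernel of the two pushforwards on `J₀(P)[n]`. -/
def KernelQuartic (N P q n : ℕ) [NeZero N] [NeZero P] [NeZero q] (σ : GQ) : Prop :=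
  ∀ (h₁ : N * 1 ∣ P) (h₂ : N * q ∣ P) (x : JZero P), n • x = 0 →
    pushPic (dilHom N P 1 h₁) x = 0 → pushPic (dilHom N P q h₂) x = 0 →
      σ • (σ • (σ • (σ • x) - x)) - (q * q) • (σ • (σ • x) - x) = 0

/-- Roots of the twisted classes kill the kernel by the quartic. -/
theorem kernelQuartic_of_quadRoot {N q n : ℕ} [NeZero N] [NeZero q] {σ : GQ} (hn : n ≠ 0)
    (h : TwoComp.QuadRoot N q σ n) : KernelQuartic N (N * q) q n σ := by
  intro h₁ h₂ x hx hx₁ hx₂
  obtain ⟨D, rfl⟩ := Pic0.mk_surjective x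
  have hP := hx
  rw [Pic0.mk, ← QuotientAddGroup.mk_nsmul, QuotientAddGroup.eq_zero_iff,
    AddSubgroup.mem_addSubgroupOf, AddSubgroupClass.coe_nsmul] at hP
  obtain ⟨f, hf, hfD⟩ := hP
  have hfD' : ∀ v : Place Qb (FB (N * q)), v.ord f = (n : ℤ) * (D : Divisor Qb (FB (N * q))) v :=
    fun v => by rw [← hfD v, Finsupp.smul_apply, nsmul_eq_mul]
  have hnorm : ∀ φ : FB N →ₐ[Qb] FB (N * q), pushPic φ (Pic0.mk D) = 0 →
      ∃ (c : Qb) (k : FB N),
        CarayolFF.normAlong φ f = algebraMap Qb (FB N) c * k ^ n := fun φ hφ => by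
    obtain ⟨c, k, -, -, hck⟩ := norm_eq_of_pushPic_eq_zero φ D hφ hf fun v => (hfD' v).symm
    exact ⟨c, k, hck⟩
  obtain ⟨s, hs⟩ := h f hf (fun v => hfD' v ▸ dvd_mul_right _ _)
    (hnorm _ (by rw [← dilHom_eq_alpha]; exact hx₁)) (hnorm _ (by rw [← dilHom_eq_beta]; exact hx₂))
  have h0 := smul_sub_smul_eq_zero_of_root (K := Qb) (F := FB (N * q))
    (arithmeticGalois (modularFunctionFieldFull (N * q)) (σ * σ)) hn (q * q) D hf hfD' hx hs
  have hg : ∀ y : JZero (N * q),
      arithmeticGalois (modularFunctionFieldFull (N * q)) (σ * σ) • y = σ • (σ • y) := fun y =>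
    mul_smul σ σ y
  rw [hg, hg] at h0
  exact h0

/-- Pullback of divisor classes commutes with the Galois action. -/
theorem pullPic_smul {A B : ℕ} [NeZero A] [NeZero B] (h : A * 1 ∣ B) (σ : GQ) (x : JZero A) :
    pullPic (dilHom A B 1 h) (σ • x) = σ • pullPic (dilHom A B 1 h) x := by
  set ι := dilHom A B 1 h with hι
  let := algebraAlong ι
  have := isScalarTower_along ι
  have := isIntegral_along ι (Hecke.isIntegral_of_isFunctionField ι)
  have : FundamentalIdentity Qb (FB A) (FB B) :=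
    Hecke.fundamentalIdentityAlong ι (Hecke.isIntegral_of_isFunctionField ι)
  have hcomm : ∀ f : FB A, arithmeticGalois (modularFunctionFieldFull B) σ • ι f
      = ι (arithmeticGalois (modularFunctionFieldFull A) σ • f) := fun f => Subtype.ext (by
    simp only [hι, coe_arithmeticGalois_smul, coe_dilHom, qExpand_one_apply])
  exact UnipotentInertia.pullbackHom_smul (K := Qb) (F := FB A) (F' := FB B)
    (s := arithmeticGalois (modularFunctionFieldFull A) σ)
    (s' := arithmeticGalois (modularFunctionFieldFull B) σ) hcomm x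

/-- Pullback is injective on `n`-torsion along a tame step. -/
theorem eq_zero_of_pullPic_eq_zero {A B n : ℕ} [NeZero A] [NeZero B] (h : A * 1 ∣ B)
    (hstep : GoodReductionS18.TameStep A B n) (hn : n ≠ 0) {y : JZero A} (hy : n • y = 0)
    (h0 : pullPic (dilHom A B 1 h) y = 0) : y = 0 := by
  obtain ⟨D, rfl⟩ := Pic0.mk_surjective y
  rw [pullPic_mk, Pic0.mk, QuotientAddGroup.eq_zero_iff, AddSubgroup.mem_addSubgroupOf,
    coe_pullDeg0] at h0
  rw [Pic0.mk, ← QuotientAddGroup.mk_nsmul, QuotientAddGroup.eq_zero_iff,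
    AddSubgroup.mem_addSubgroupOf, AddSubgroupClass.coe_nsmul] at hy
  rw [Pic0.mk, QuotientAddGroup.eq_zero_iff, AddSubgroup.mem_addSubgroupOf]
  exact GoodReductionS18.isPrincipal_of_pullbackAlong_tame Qb hstep hn _
    (Hecke.isIntegral_of_isFunctionField _)
    (fun f => by rw [coe_dilHom, qExpand_one_apply]) _ hy h0

/-- At levels divisible by `2` or `3`, and `n` prime to `q`, the twisted classes of functions with
divisor divisible by `n` and trivial norms have `n`-th roots. -/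
def QuadAtSplitLevels : Prop :=
  ∀ (N q n : ℕ) [NeZero N] [NeZero q], q.Prime → ¬ q ∣ N → (2 ∣ N ∨ 3 ∣ N) → n ≠ 0 →
    n.Coprime q → ∀ A : ValuationSubring Qb, A.LiesOverPrime q →
      ∀ σ : GQ, A.IsFrobeniusAt σ q → TwoComp.QuadRoot N q σ n

/-- The quartic kills the kernel at every level. -/
theorem kernelQuartic_of_split (hcore : QuadAtSplitLevels) {N P q p k : ℕ} [NeZero N] [NeZero P]
    [NeZero q] (hq : q.Prime) (hqN : ¬ q ∣ N) (hP : P = N * q) (hp : p.Prime) (hpq : p ≠ q)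
    {A : ValuationSubring Qb} (hA : A.LiesOverPrime q) {σ : GQ} (hσ : A.IsFrobeniusAt σ q) :
    KernelQuartic N P q (p ^ k) σ := by
  subst hP
  have hn : p ^ k ≠ 0 := pow_ne_zero _ hp.ne_zero
  have hco : (p ^ k).Coprime q := ((Nat.coprime_primes hp hq).mpr hpq).pow_left k
  by_cases hN : 2 ∣ N ∨ 3 ∣ N
  · exact kernelQuartic_of_quadRoot hn (hcore N q _ hq hqN hN hn hco A hA σ hσ)
  push Not at hN
  obtain ⟨h, hh, hhN, hhq, hh2⟩ : ∃ h : ℕ, (h = 2 ∨ h = 3) ∧ ¬ h ∣ N ∧ h ≠ q ∧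
      (h = 3 → p ≠ 2) := by
    by_cases h2 : q = 2
    · exact ⟨3, Or.inr rfl, hN.2, by omega, fun _ => h2 ▸ hpq⟩
    · exact ⟨2, Or.inl rfl, hN.1, Ne.symm h2, by omega⟩
  have hhp : h.Prime := by rcases hh with rfl | rfl <;> decide
  have : NeZero h := ⟨hhp.ne_zero⟩
  have : NeZero (N * h) := ⟨Nat.mul_ne_zero (NeZero.ne N) hhp.ne_zero⟩
  have : NeZero (N * h * q) := ⟨Nat.mul_ne_zero (NeZero.ne _) hq.ne_zero⟩
  have hqNh : ¬ q ∣ N * h := fun hd => (hq.dvd_mul.mp hd).elim hqN fun h1 =>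
    hhq ((Nat.prime_dvd_prime_iff_eq hq hhp).mp h1).symm
  have hQ := kernelQuartic_of_quadRoot hn (hcore (N * h) q _ hq hqNh
    (by rcases hh with rfl | rfl
        · exact Or.inl (dvd_mul_left 2 N)
        · exact Or.inr (dvd_mul_left 3 N)) hn hco A hA σ hσ)
  intro h₁ h₂ x hx hx₁ hx₂
  have hR : N * h * q = N * q * h := mul_right_comm _ _ _
  have hPR : N * q * 1 ∣ N * h * q := by rw [hR, mul_one]; exact dvd_mul_right _ _
  have hhP : ¬ h ∣ N * q := fun hd => (hhp.dvd_mul.mp hd).elim hhN fun h1 =>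
    hhq ((Nat.prime_dvd_prime_iff_eq hhp hq).mp h1)
  have hstep : GoodReductionS18.TameStep (N * q) (N * h * q) (p ^ k) :=
    Or.inr ⟨h, hh, hhP, by ring, fun e h2 =>
      hh2 e ((Nat.prime_dvd_prime_iff_eq Nat.prime_two hp).mp
        (Nat.prime_two.dvd_of_dvd_pow h2)).symm⟩
  set ι := pullPic (dilHom (N * q) (N * h * q) 1 hPR) with hι
  have hg1 : N * 1 ∣ N * h := by rw [mul_one]; exact dvd_mul_right _ _
  have h₁' : N * h * 1 ∣ N * h * q := by rw [mul_one]; exact dvd_mul_right _ _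
  have h₂' : N * h * q ∣ N * h * q := dvd_rfl
  have hι₁ : pushPic (dilHom (N * h) (N * h * q) 1 h₁') (ι x) = 0 := by
    rw [hι, pushPic_pullPic hq hhp hhq.symm hqN hhN rfl rfl hR (Or.inl rfl) h₁ hg1 h₁' hPR, hx₁,
      map_zero]
  have hι₂ : pushPic (dilHom (N * h) (N * h * q) q h₂') (ι x) = 0 := by
    rw [hι, pushPic_pullPic hq hhp hhq.symm hqN hhN rfl rfl hR (Or.inr rfl) h₂ hg1 h₂' hPR, hx₂,
      map_zero]
  have h0 := hQ h₁' h₂' (ι x) (by rw [← map_nsmul, hx, map_zero]) hι₁ hι₂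
  refine eq_zero_of_pullPic_eq_zero hPR hstep hn ?_ ?_
  · have hsm : ∀ y : JZero (N * q), p ^ k • y = 0 → p ^ k • (σ • y) = 0 := fun y hy => by
      rw [show p ^ k • (σ • y) = σ • (p ^ k • y) from
        (map_nsmul (DistribSMul.toAddMonoidHom (JZero (N * q)) σ) _ y).symm, hy]
      exact (DistribSMul.toAddMonoidHom (JZero (N * q)) σ).map_zero
    have hy : p ^ k • (σ • (σ • x) - x) = 0 := by rw [nsmul_sub, hsm _ (hsm _ hx), hx, sub_zero]
    rw [nsmul_sub, hsm _ (hsm _ hy), nsmul_left_comm, hy, smul_zero, sub_zero]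
  · rw [← hι, map_sub, map_nsmul, hι, pullPic_smul, pullPic_smul, map_sub, pullPic_smul,
      pullPic_smul]
    exact h0

end Fermat.Agent.BadPrimeFrobenius
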