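import Fermat.Agent.BadPrimeFrobenius.Compositum
import Fermat.Agent.HeckeCommute

/-!
# The squares `X₀(Nqm) → X₀(Nq), X₀(Nm) → X₀(N)`

For distinct primes `q`, `m` not dividing `N` pullback and pushforward of divisors commute in
every square built from the degeneracy maps.  Hence the two pushforwards `J₀(Nq) → J₀(N)` commute
with the Hecke operators away from `Nq` and with raising the level by an auxiliary prime.
-/

noncomputable section

open AlgebraicCurve ModularCurve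

namespace Fermat.Agent.BadPrimeFrobenius

open CarayolReduction HeckeCommute

local notation "Qb" => AlgebraicClosure ℚ
local notation "FB" => modularFunctionFieldBar

variable {N q m P Q R : ℕ} [NeZero N] [NeZero q] [NeZero m] [NeZero P] [NeZero Q] [NeZero R]

omit [NeZero m] [NeZero Q] [NeZero R] [NeZero q] in
/-- The inclusion of level `N` in level `N q` has degree `q + 1`. -/
theorem finrank_one (hq : q.Prime) (hqN : ¬ q ∣ N) (hP : P = N * q) (h : N * 1 ∣ P) :
    finrankAlong Qb (dilHom N P 1 h) = q + 1 := by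
  have e := dedekindPsi_mul_finrank h
  rw [(congrArg dedekindPsi hP).trans (dedekindPsi_mul_prime hq (NeZero.ne N)), if_neg hqN] at e
  exact mul_left_cancel₀ (dedekindPsi_ne_zero N) e

omit [NeZero m] in
/-- Both degeneracy maps at `q` have the same degree at level `N` and at level `N m`. -/
theorem finrank_eq (hq : q.Prime) (hm : m.Prime) (hne : q ≠ m) (hqN : ¬ q ∣ N) (hmN : ¬ m ∣ N)
    (hP : P = N * q) (hQ : Q = N * m) (hR : R = N * q * m) {d : ℕ} [NeZero d] (hd : d = 1 ∨ d = q)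
    (hφ : N * d ∣ P) (hψ : Q * d ∣ R) :
    finrankAlong Qb (dilHom N P d hφ) = finrankAlong Qb (dilHom Q R d hψ) := by
  have hqm : ∀ {a b : ℕ}, a.Prime → b.Prime → a ≠ b → ¬ a ∣ N → ¬ a ∣ N * b :=
    fun ha hb hab haN h => (ha.dvd_mul.mp h).elim haN fun h' =>
      hab ((Nat.prime_dvd_prime_iff_eq ha hb).mp h')
  have hR' : R = Q * q := by rw [hR, hQ]; ring
  rcases hd with rfl | rfl
  · rw [finrank_one hq hqN hP hφ,
      finrank_one hq (hQ ▸ hqm hq hm hne hqN : ¬ q ∣ Q) hR' hψ]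
  have hg : N * 1 ∣ Q := by rw [hQ, mul_one]; exact dvd_mul_right _ _
  have hg' : P * 1 ∣ R := by rw [hR, hP, mul_one]; exact dvd_mul_right _ _
  set φ := dilHom N P d hφ
  set ψ := dilHom Q R d hψ
  set g := dilHom N Q 1 hg
  set g' := dilHom P R 1 hg'
  have e1 := Hecke.finrank_adjoin_map g' (φ (ModCurveGenus.jEl N))
  have e2 := Hecke.finrank_adjoin_map ψ (g (ModCurveGenus.jEl N))
  have hj : g' (φ (ModCurveGenus.jEl N)) = ψ (g (ModCurveGenus.jEl N)) := Subtype.ext <| by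
    simp only [g', φ, ψ, g, coe_dilHom, qExpand_one_apply]
  rw [Hecke.finrank_adjoin_map φ, Hecke.finrank_jEl] at e1
  rw [Hecke.finrank_adjoin_map g, Hecke.finrank_jEl] at e2
  have hdeg : finrankAlong Qb g = finrankAlong Qb g' := by
    rw [finrank_one hm hmN hQ hg, finrank_one hm (hP ▸ hqm hm hq hne.symm hmN : ¬ m ∣ P)
      (by rw [hR, hP]) hg']
  rw [hj, e2, hdeg, mul_assoc, mul_assoc, mul_comm (finrankAlong Qb φ)] at e1
  have hpos : 0 < finrankAlong Qb g' := by
    rw [← hdeg, finrank_one hm hmN hQ hg]; omega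
  exact (mul_left_cancel₀ hpos.ne' (mul_left_cancel₀ (dedekindPsi_ne_zero N) e1)).symm

/-- The two upper maps of the square generate. -/
theorem adjoin_eq_top (hq : q.Prime) (hm : m.Prime) (hne : q ≠ m) (hP : P = N * q)
    (hQ : Q = N * m) (hR : R = N * q * m) {d e : ℕ} [NeZero d] [NeZero e]
    (hd : d = 1 ∨ d = q) (he : e = 1 ∨ e = m) (hψ : Q * d ∣ R) (hg' : P * e ∣ R) :
    IntermediateField.adjoin Qb
      (Set.range (dilHom P R e hg') ∪ Set.range (dilHom Q R d hψ)) = ⊤ := by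
  set C := IntermediateField.adjoin Qb
    (Set.range (dilHom P R e hg') ∪ Set.range (dilHom Q R d hψ))
  let C₀ : IntermediateField Qb (LaurentSeries Qb) := C.map (FB R).val
  have hψm : ∀ (i k : ℕ) [NeZero i] [NeZero k], i ∣ Q → k = d * i →
      qExpand Qb k (jqModC Qb) ∈ C₀ := fun i k _ _ hi hk =>
    ⟨_, IntermediateField.subset_adjoin Qb _
      (Or.inr ⟨⟨_, Hecke.qExpand_jC_mem Qb Q hi⟩, rfl⟩), by
      show (dilHom Q R d hψ _ : LaurentSeries Qb) = _
      rw [coe_dilHom, qExpand_qExpand]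
      exact qExpand_congr hk.symm _⟩
  have hgm : ∀ (i k : ℕ) [NeZero i] [NeZero k], i ∣ P → k = e * i →
      qExpand Qb k (jqModC Qb) ∈ C₀ := fun i k _ _ hi hk =>
    ⟨_, IntermediateField.subset_adjoin Qb _
      (Or.inl ⟨⟨_, Hecke.qExpand_jC_mem Qb P hi⟩, rfl⟩), by
      show (dilHom P R e hg' _ : LaurentSeries Qb) = _
      rw [coe_dilHom, qExpand_qExpand]
      exact qExpand_congr hk.symm _⟩
  have hbot : qExpand Qb 1 (jqModC Qb) ∈ C₀ := by
    rcases hd with rfl | rfl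
    · exact hψm 1 1 (one_dvd _) rfl
    rcases he with rfl | rfl
    · exact hgm 1 1 (one_dvd _) rfl
    rw [qExpand_one_apply]
    exact bot_mem_of_two C₀ hq hm hne (hψm 1 _ (one_dvd _) (mul_one _).symm)
      (hgm 1 _ (one_dvd _) (mul_one _).symm)
  have htop : qExpand Qb R (jqModC Qb) ∈ C₀ := by
    rcases hd with rfl | rfl
    · rcases he with rfl | rfl
      · have h := level_mem_of_two C₀ hq hm hne N
          (hψm (N * m) _ (dvd_of_eq hQ.symm) (one_mul _).symm)
          (hgm (N * q) _ (dvd_of_eq hP.symm) (one_mul _).symm)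
        exact (qExpand_congr hR (jqModC Qb)) ▸ h
      · exact hgm P R dvd_rfl (by rw [hR, hP]; ring)
    · exact hψm Q R dvd_rfl (by rw [hR, hQ]; ring)
  refine eq_top_of_jqN_mem C ?_ ?_
  · obtain ⟨z, hz, hzx⟩ := hbot
    exact (Subtype.ext hzx : z = ⟨qExpand Qb 1 (jqModC Qb),
      Hecke.qExpand_jC_mem Qb R (one_dvd R)⟩) ▸ hz
  · obtain ⟨z, hz, hzx⟩ := htop
    exact (Subtype.ext hzx : z = ⟨qExpand Qb R (jqModC Qb),
      Hecke.qExpand_jC_mem Qb R dvd_rfl⟩) ▸ hz

/-- **Pushforward along a degeneracy map at `q` commutes with pullback along one at `m`.** -/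
theorem pushforward_pullback (hq : q.Prime) (hm : m.Prime) (hne : q ≠ m) (hqN : ¬ q ∣ N)
    (hmN : ¬ m ∣ N) (hP : P = N * q) (hQ : Q = N * m) (hR : R = N * q * m) {d e : ℕ} [NeZero d]
    [NeZero e] (hd : d = 1 ∨ d = q) (he : e = 1 ∨ e = m) (hφ : N * d ∣ P) (hg : N * e ∣ Q)
    (hψ : Q * d ∣ R) (hg' : P * e ∣ R) (D : Divisor Qb (FB P)) :
    Divisor.pushforwardAlong (dilHom Q R d hψ) (dilHom_integral Q R d hψ)
        (Divisor.pullbackAlong (dilHom P R e hg') (dilHom_integral P R e hg') D) =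
      Divisor.pullbackAlong (dilHom N Q e hg) (dilHom_integral N Q e hg)
        (Divisor.pushforwardAlong (dilHom N P d hφ) (dilHom_integral N P d hφ) D) :=
  pushforwardAlong_pullbackAlong _ _ _ _
    (fun y => Subtype.ext <| by
      simp only [coe_dilHom, qExpand_qExpand]
      exact qExpand_congr (mul_comm _ _) _)
    (finrank_eq hq hm hne hqN hmN hP hQ hR hd hφ hψ)
    (adjoin_eq_top hq hm hne hP hQ hR hd he hψ hg') _ _ _ _ D

section PullPic

variable {A B : ℕ} [NeZero A] [NeZero B] (φ : FB A →ₐ[Qb] FB B)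

/-- Pullback of degree zero divisors. -/
def pullDeg0 : Divisor.degZero (K := Qb) (F := FB A) →+ Divisor.degZero (K := Qb) (F := FB B) :=
  letI := algebraAlong φ
  haveI := isScalarTower_along φ
  haveI := isIntegral_along φ (Hecke.isIntegral_of_isFunctionField φ)
  haveI : FundamentalIdentity Qb (FB A) (FB B) :=
    Hecke.fundamentalIdentityAlong φ (Hecke.isIntegral_of_isFunctionField φ)
  Pic0.pullbackDegZeroHom (FB B)

/-- Pullback of divisor classes. -/
def pullPic : JZero A →+ JZero B :=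
  letI := algebraAlong φ
  haveI := isScalarTower_along φ
  haveI := isIntegral_along φ (Hecke.isIntegral_of_isFunctionField φ)
  haveI : FundamentalIdentity Qb (FB A) (FB B) :=
    Hecke.fundamentalIdentityAlong φ (Hecke.isIntegral_of_isFunctionField φ)
  Pic0.pullbackHom (FB B)

/-- The pullback of a divisor class. -/
theorem pullPic_mk (D : Divisor.degZero (K := Qb) (F := FB A)) :
    pullPic φ (Pic0.mk D) = Pic0.mk (pullDeg0 φ D) := rfl

/-- The divisor of a pullback. -/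
theorem coe_pullDeg0 (D : Divisor.degZero (K := Qb) (F := FB A)) :
    (pullDeg0 φ D : Divisor Qb (FB B)) =
      Divisor.pullbackAlong φ (Hecke.isIntegral_of_isFunctionField φ) (D : Divisor Qb (FB A)) :=
  rfl

end PullPic

/-- Pushforward to level `N` commutes with raising the level by `m`. -/
theorem pushPic_pullPic (hq : q.Prime) (hm : m.Prime) (hne : q ≠ m) (hqN : ¬ q ∣ N)
    (hmN : ¬ m ∣ N) (hP : P = N * q) (hQ : Q = N * m) (hR : R = N * q * m) {d : ℕ} [NeZero d]
    (hd : d = 1 ∨ d = q) (hφ : N * d ∣ P) (hg : N * 1 ∣ Q) (hψ : Q * d ∣ R) (hg' : P * 1 ∣ R)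
    (x : JZero P) :
    pushPic (dilHom Q R d hψ) (pullPic (dilHom P R 1 hg') x) =
      pullPic (dilHom N Q 1 hg) (pushPic (dilHom N P d hφ) x) := by
  obtain ⟨D, rfl⟩ := Pic0.mk_surjective x
  rw [pullPic_mk, pushPic_mk, pushPic_mk, pullPic_mk]
  exact congrArg Pic0.mk (Subtype.ext
    (pushforward_pullback hq hm hne hqN hmN hP hQ hR hd (Or.inl rfl) hφ hg hψ hg' D))

omit [NeZero m] [NeZero Q] [NeZero R] in
/-- Pushforward to level `N` commutes with the Hecke operators away from `N q`. -/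
theorem pushPic_hecke (hq : q.Prime) (hqN : ¬ q ∣ N) (hP : P = N * q) {d : ℕ} [NeZero d]
    (hd : d = 1 ∨ d = q) (hφ : N * d ∣ P) (ℓ : Nat.Primes) (hℓ : ¬ (ℓ : ℕ) ∣ P) (x : JZero P) :
    pushPic (dilHom N P d hφ) (heckeOperatorBar P ℓ x) =
      heckeOperatorBar N ℓ (pushPic (dilHom N P d hφ) x) := by
  have : NeZero (ℓ : ℕ) := ⟨ℓ.2.ne_zero⟩
  obtain ⟨hαP, hβP, _, hfP, hFIP, hNP, eP⟩ := Hecke.heckeOperatorAlong_eq_pic0 Qb P (ℓ : ℕ)
  obtain ⟨hαN, hβN, _, hfN, hFIN, hNN, eN⟩ := Hecke.heckeOperatorAlong_eq_pic0 Qb N (ℓ : ℕ)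
  rw [heckeOperatorBar_apply, heckeOperatorBar_apply, eP, eN]
  obtain ⟨⟨D, hD0⟩, rfl⟩ := Pic0.mk_surjective x
  refine congrArg Pic0.mk (Subtype.ext ?_)
  have hℓN : ¬ (ℓ : ℕ) ∣ N := fun h => hℓ (hP ▸ h.mul_right q)
  have hne : q ≠ (ℓ : ℕ) := fun h => hℓ (by rw [hP, ← h]; exact dvd_mul_left _ _)
  have hψ : N * (ℓ : ℕ) * d ∣ P * (ℓ : ℕ) := by
    rw [mul_right_comm]; exact mul_dvd_mul_right hφ _
  set φ := dilHom N P d hφ
  set ψ := dilHom (N * (ℓ : ℕ)) (P * (ℓ : ℕ)) d hψ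
  set αP := heckeAlphaBar Qb P (ℓ : ℕ)
  set αN := heckeAlphaBar Qb N (ℓ : ℕ)
  have hφi := dilHom_integral N P d hφ
  have hθi : (αP.comp φ).toRingHom.IsIntegral := Hecke.isIntegral_of_isFunctionField _
  show Divisor.pushforwardAlong φ hφi
      (Divisor.pushforwardAlong αP hαP (Divisor.pullbackAlong (heckeBetaBar Qb P (ℓ : ℕ)) hβP D)) =
    Divisor.pushforwardAlong αN hαN (Divisor.pullbackAlong (heckeBetaBar Qb N (ℓ : ℕ)) hβN
      (Divisor.pushforwardAlong φ hφi D))
  have hcomm : ∀ y, αP (φ y) = ψ (αN y) := fun y => Subtype.ext <| by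
    simp only [αP, αN, φ, ψ, coe_heckeAlphaBar, coe_dilHom]
  rw [pushforwardAlong_comp (αP.comp φ) hφi hαP hθi (fun _ => rfl),
    ← pushforwardAlong_comp (αP.comp φ) hαN (dilHom_integral _ _ d hψ) hθi (fun y => hcomm y)]
  exact congrArg _ (pushforward_pullback hq ℓ.2 hne hqN hℓN hP rfl (by rw [hP]) hd (Or.inr rfl)
    hφ dvd_rfl hψ dvd_rfl D)

end Fermat.Agent.BadPrimeFrobenius
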